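import Fermat.Agent.RamanujanPi.Series
import Mathlib.Analysis.Analytic.IsolatedZeros
import Mathlib.Analysis.Analytic.Uniqueness
import Mathlib.Analysis.Calculus.Deriv.Inv

/-!
# Clausen's identity `F(x)² = ∑ (C(2n,n)/4^n)³ (4 x (1 - x))^n`

Both sides satisfy the symmetric square of the hypergeometric equation, whose exponents at `0`
are triple zero.
-/

set_option autoImplicit false

noncomputable section

open Filter Topology Set
open FA.Hypergeometric (hypF halfCoeff halfCoeff_succ halfCoeff_mem)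

namespace FA.RamanujanPi

variable {a b : ℕ → ℝ}

theorem powSum_add (ha : PolyBdd a) (hb : PolyBdd b) {x : ℝ} (hx : |x| < 1) :
    powSum (fun n => a n + b n) x = powSum a x + powSum b x := by
  rw [powSum, powSum, powSum, ← (ha.summable hx).tsum_add (hb.summable hx)]
  exact tsum_congr fun n => by ring

theorem powSum_const_mul (c : ℝ) (a : ℕ → ℝ) (x : ℝ) :
    powSum (fun n => c * a n) x = c * powSum a x := by
  rw [powSum, powSum, ← tsum_mul_left]
  exact tsum_congr fun n => by ring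

theorem PolyBdd.const_mul (h : PolyBdd a) (c : ℝ) : PolyBdd fun n => c * a n := by
  obtain ⟨C, k, h⟩ := h
  refine ⟨|c| * C, k, fun n => ?_⟩
  rw [abs_mul, mul_assoc]
  gcongr
  exact h n

theorem PolyBdd.add (ha : PolyBdd a) (hb : PolyBdd b) : PolyBdd fun n => a n + b n := by
  obtain ⟨C, k, ha⟩ := ha
  obtain ⟨D, l, hb⟩ := hb
  have hC : 0 ≤ C := by simpa using (abs_nonneg _).trans (ha 0)
  have hD : 0 ≤ D := by simpa using (abs_nonneg _).trans (hb 0)
  refine ⟨C + D, max k l, fun n => (abs_add_le _ _).trans ?_⟩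
  have h1 : (1 : ℝ) ≤ (n : ℝ) + 1 := by linarith [n.cast_nonneg (α := ℝ)]
  calc |a n| + |b n| ≤ C * ((n : ℝ) + 1) ^ k + D * ((n : ℝ) + 1) ^ l := add_le_add (ha n) (hb n)
    _ ≤ C * ((n : ℝ) + 1) ^ max k l + D * ((n : ℝ) + 1) ^ max k l := by
        gcongr
        · exact le_max_left k l
        · exact le_max_right k l
    _ = _ := by ring

theorem eventually_abs_lt_one {x : ℝ} (hx : |x| < 1) : ∀ᶠ y in 𝓝 x, |y| < 1 :=
  continuous_abs.continuousAt.eventually_lt continuousAt_const hx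

/-- The derivative of `∑ n a_n x^n = x (∑ a_n x^n)'`. -/
theorem PolyBdd.dCoeff_mulNat (h : PolyBdd a) {x : ℝ} (hx : |x| < 1) :
    powSum (FA.RamanujanPi.dCoeff fun n => (n : ℝ) * a n) x =
      powSum (FA.RamanujanPi.dCoeff a) x +
        x * powSum (FA.RamanujanPi.dCoeff (FA.RamanujanPi.dCoeff a)) x := by
  have h1 := (hasDerivAt_id x).mul (h.dCoeff.hasDerivAt hx)
  have h2 := (h.mulNat.hasDerivAt hx).congr_of_eventuallyEq
    ((eventually_abs_lt_one hx).mono fun y hy => h.mul_deriv hy)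
  simpa using h2.unique h1

/-- `(C(2n,n)/4^n)²`. -/
def sqCoeff (n : ℕ) : ℝ := halfCoeff n ^ 2

/-- `(C(2n,n)/4^n)³`. -/
def cubeCoeff (n : ℕ) : ℝ := halfCoeff n ^ 3

theorem polyBdd_sqCoeff : PolyBdd sqCoeff := polyBdd_of_abs_le_one fun n => by
  rw [sqCoeff, abs_pow, abs_of_nonneg (halfCoeff_mem n).1]
  exact pow_le_one₀ (halfCoeff_mem n).1 (halfCoeff_mem n).2

theorem polyBdd_cubeCoeff : PolyBdd cubeCoeff := polyBdd_of_abs_le_one fun n => by
  rw [cubeCoeff, abs_pow, abs_of_nonneg (halfCoeff_mem n).1]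
  exact pow_le_one₀ (halfCoeff_mem n).1 (halfCoeff_mem n).2

theorem powSum_sqCoeff (x : ℝ) : powSum sqCoeff x = hypF x := rfl

/-- **The hypergeometric equation.** -/
theorem sq_equation {x : ℝ} (hx : |x| < 1) :
    x * (1 - x) * powSum (dCoeff (dCoeff sqCoeff)) x +
      (1 - 2 * x) * powSum (dCoeff sqCoeff) x - powSum sqCoeff x / 4 = 0 := by
  have h := polyBdd_sqCoeff
  have e : (dCoeff fun n : ℕ => (n : ℝ) * sqCoeff n) = fun n : ℕ =>
      (n : ℝ) * ((n : ℝ) * sqCoeff n) + ((n : ℝ) * sqCoeff n + (1 / 4) * sqCoeff n) := by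
    funext n
    simp only [FA.RamanujanPi.dCoeff, sqCoeff, halfCoeff_succ]
    push_cast
    field_simp
    ring
  have hG := congrArg (fun f => powSum f x) e
  rw [powSum_add h.mulNat.mulNat (h.mulNat.add (h.const_mul _)) hx,
    powSum_add h.mulNat (h.const_mul _) hx, powSum_const_mul, ← h.mulNat.mul_deriv hx,
    ← h.mul_deriv hx, h.dCoeff_mulNat hx] at hG
  linear_combination hG

/-- **The equation of `∑ (C(2n,n)/4^n)³ z^n`.** -/
theorem cube_equation {x : ℝ} (hx : |x| < 1) :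
    x ^ 2 * (1 - x) * powSum (dCoeff (dCoeff (dCoeff cubeCoeff))) x +
      (3 * x - 9 / 2 * x ^ 2) * powSum (dCoeff (dCoeff cubeCoeff)) x +
      (1 - 13 / 4 * x) * powSum (dCoeff cubeCoeff) x - powSum cubeCoeff x / 8 = 0 := by
  have h := polyBdd_cubeCoeff
  have e : (dCoeff fun n : ℕ => (n : ℝ) * ((n : ℝ) * cubeCoeff n)) = fun n : ℕ =>
      (n : ℝ) * ((n : ℝ) * ((n : ℝ) * cubeCoeff n)) + (3 / 2 * ((n : ℝ) * ((n : ℝ) * cubeCoeff n)) +
        (3 / 4 * ((n : ℝ) * cubeCoeff n) + 1 / 8 * cubeCoeff n)) := by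
    funext n
    simp only [FA.RamanujanPi.dCoeff, cubeCoeff, halfCoeff_succ]
    push_cast
    field_simp
    ring
  have hG := congrArg (fun f => powSum f x) e
  rw [powSum_add h.mulNat.mulNat.mulNat ((h.mulNat.mulNat.const_mul _).add
      ((h.mulNat.const_mul _).add (h.const_mul _))) hx,
    powSum_add (h.mulNat.mulNat.const_mul _) ((h.mulNat.const_mul _).add (h.const_mul _)) hx,
    powSum_add (h.mulNat.const_mul _) (h.const_mul _) hx, powSum_const_mul, powSum_const_mul,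
    powSum_const_mul, ← h.mulNat.mulNat.mul_deriv hx, ← h.mulNat.mul_deriv hx,
    ← h.mul_deriv hx, h.dCoeff_mulNat hx] at hG
  have hH : powSum (dCoeff (dCoeff fun n => (n : ℝ) * cubeCoeff n)) x =
      2 * powSum (dCoeff (dCoeff cubeCoeff)) x +
        x * powSum (dCoeff (dCoeff (dCoeff cubeCoeff))) x := by
    have h1 := (h.dCoeff.hasDerivAt hx).add
      ((hasDerivAt_id x).mul (h.dCoeff.dCoeff.hasDerivAt hx))
    have h2 := (h.mulNat.dCoeff.hasDerivAt hx).congr_of_eventuallyEq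
      ((eventually_abs_lt_one hx).mono fun y hy => (h.dCoeff_mulNat hy).symm)
    have := h2.unique h1
    simp only [id_eq, one_mul] at this
    linear_combination this
  rw [h.mulNat.dCoeff_mulNat hx, h.dCoeff_mulNat hx, hH] at hG
  linear_combination hG

/-- `θ (x^m g) = x^m (m g + x g')`. -/
theorem mul_deriv_pow_smul {f g : ℝ → ℝ} {f' g' x : ℝ} (m : ℕ) (hf : HasDerivAt f f' x)
    (hg : HasDerivAt g g' x) (he : f =ᶠ[𝓝 x] fun y => y ^ m * g y) :
    x * f' = x ^ m * ((m : ℝ) * g x + x * g') := by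
  rw [hf.unique (((hasDerivAt_pow m x).mul hg).congr_of_eventuallyEq he)]
  rcases m with _ | m
  · simp
  · rw [Nat.add_sub_cancel, pow_succ]
    ring

/-- The two sides and their difference. -/
def clausenDiff (x : ℝ) : ℝ :=
  powSum sqCoeff x ^ 2 - powSum cubeCoeff (4 * x * (1 - x))

theorem abs_four_mul_lt {x : ℝ} (hx : x ∈ Ioo (-(1 / 5) : ℝ) (1 / 2)) :
    |x| < 1 ∧ |4 * x * (1 - x)| < 1 := by
  obtain ⟨h1, h2⟩ := hx
  refine ⟨abs_lt.2 ⟨by linarith, by linarith⟩, abs_lt.2 ⟨by nlinarith, ?_⟩⟩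
  nlinarith [mul_pos (sub_pos.2 h2) (sub_pos.2 h2)]

theorem analyticAt_clausenDiff {x : ℝ} (hx : x ∈ Ioo (-(1 / 5) : ℝ) (1 / 2)) :
    AnalyticAt ℝ clausenDiff x := by
  obtain ⟨h1, h2⟩ := abs_four_mul_lt hx
  refine ((polyBdd_sqCoeff.analyticAt h1).pow 2).sub ?_
  exact AnalyticAt.fun_comp (polyBdd_cubeCoeff.analyticAt h2)
    ((analyticAt_const.mul analyticAt_id).mul (analyticAt_const.sub analyticAt_id))

/-- **The difference satisfies the symmetric square equation.** -/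
theorem clausenDiff_equation {x : ℝ} (hx : x ∈ Ioo (-(1 / 5) : ℝ) (1 / 2)) :
    (x * (1 - x)) ^ 2 * deriv (deriv (deriv clausenDiff)) x +
      3 * (x * (1 - x)) * (1 - 2 * x) * deriv (deriv clausenDiff) x +
      (1 - 7 * (x * (1 - x))) * deriv clausenDiff x - (1 - 2 * x) / 2 * clausenDiff x = 0 := by
  set F := powSum sqCoeff with hF
  set F1 := powSum (dCoeff sqCoeff)
  set F2 := powSum (dCoeff (dCoeff sqCoeff))
  set F3 := powSum (dCoeff (dCoeff (dCoeff sqCoeff)))
  set S := powSum cubeCoeff with hS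
  set S1 := powSum (dCoeff cubeCoeff)
  set S2 := powSum (dCoeff (dCoeff cubeCoeff))
  set S3 := powSum (dCoeff (dCoeff (dCoeff cubeCoeff)))
  have hnhd : ∀ {y : ℝ}, y ∈ Ioo (-(1 / 5) : ℝ) (1 / 2) →
      Ioo (-(1 / 5) : ℝ) (1 / 2) ∈ 𝓝 y := fun hy => isOpen_Ioo.mem_nhds hy
  have hZ : ∀ y : ℝ, HasDerivAt (fun y => 4 * y * (1 - y)) (4 * (1 - 2 * y)) y := fun y =>
    (((hasDerivAt_id y).const_mul 4).mul ((hasDerivAt_id y).const_sub 1)).congr_deriv (by
      simp only [id_eq]; ring)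
  have hA' : ∀ y : ℝ, HasDerivAt (fun y => 4 * (1 - 2 * y)) (-8) y := fun y =>
    ((((hasDerivAt_id y).const_mul 2).const_sub 1).const_mul 4).congr_deriv (by norm_num)
  have hD1 : ∀ y ∈ Ioo (-(1 / 5) : ℝ) (1 / 2), HasDerivAt clausenDiff
      (2 * F y * F1 y - S1 (4 * y * (1 - y)) * (4 * (1 - 2 * y))) y := fun y hy => by
    obtain ⟨h1, h2⟩ := abs_four_mul_lt hy
    refine (((polyBdd_sqCoeff.hasDerivAt h1).pow 2).sub
      ((polyBdd_cubeCoeff.hasDerivAt h2).comp y (hZ y))).congr_deriv ?_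
    simp [F, F1, S1]
  have hD2 : ∀ y ∈ Ioo (-(1 / 5) : ℝ) (1 / 2), HasDerivAt (deriv clausenDiff)
      (2 * F1 y ^ 2 + 2 * F y * F2 y - (S2 (4 * y * (1 - y)) * (4 * (1 - 2 * y)) ^ 2 -
        8 * S1 (4 * y * (1 - y)))) y := fun y hy => by
    obtain ⟨h1, h2⟩ := abs_four_mul_lt hy
    refine ((((polyBdd_sqCoeff.hasDerivAt h1).const_mul 2).mul
      (polyBdd_sqCoeff.dCoeff.hasDerivAt h1)).sub
      (((polyBdd_cubeCoeff.dCoeff.hasDerivAt h2).comp y (hZ y)).mul (hA' y))).congr_of_eventuallyEq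
      (eventually_of_mem (hnhd hy) fun z hz => (hD1 z hz).deriv) |>.congr_deriv ?_
    simp only [F, F1, F2, S1, S2, Function.comp_apply]
    ring
  have hD3 : HasDerivAt (deriv (deriv clausenDiff))
      (6 * F1 x * F2 x + 2 * F x * F3 x - (S3 (4 * x * (1 - x)) * (4 * (1 - 2 * x)) ^ 3 -
        24 * S2 (4 * x * (1 - x)) * (4 * (1 - 2 * x)))) x := by
    obtain ⟨h1, h2⟩ := abs_four_mul_lt hx
    refine (((((polyBdd_sqCoeff.dCoeff.hasDerivAt h1).pow 2).const_mul 2).add
      (((polyBdd_sqCoeff.hasDerivAt h1).const_mul 2).mul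
        (polyBdd_sqCoeff.dCoeff.dCoeff.hasDerivAt h1))).sub
      ((((polyBdd_cubeCoeff.dCoeff.dCoeff.hasDerivAt h2).comp x (hZ x)).mul ((hA' x).pow 2)).sub
        (((polyBdd_cubeCoeff.dCoeff.hasDerivAt h2).comp x (hZ x)).const_mul 8))
      ).congr_of_eventuallyEq
      (eventually_of_mem (hnhd hx) fun z hz => (hD2 z hz).deriv) |>.congr_deriv ?_
    simp only [F, F1, F2, F3, S2, S3, Function.comp_apply, Pi.pow_apply, Nat.cast_ofNat]
    ring
  obtain ⟨h1, h2⟩ := abs_four_mul_lt hx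
  have hE : ∀ y : ℝ, |y| < 1 → y * (1 - y) * F2 y + (1 - 2 * y) * F1 y - F y / 4 = 0 :=
    fun y hy => sq_equation hy
  have hE' : x * (1 - x) * F3 x + 2 * (1 - 2 * x) * F2 x - 9 / 4 * F1 x = 0 := by
    have hd := (((((hasDerivAt_id x).mul ((hasDerivAt_id x).const_sub 1))).mul
      (polyBdd_sqCoeff.dCoeff.dCoeff.hasDerivAt h1)).add
      ((((hasDerivAt_id x).const_mul 2).const_sub 1).mul
        (polyBdd_sqCoeff.dCoeff.hasDerivAt h1))).sub
      ((polyBdd_sqCoeff.hasDerivAt h1).div_const 4)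
    have h0 := (hasDerivAt_const x (0 : ℝ)).congr_of_eventuallyEq
      ((eventually_abs_lt_one h1).mono fun y hy => hE y hy)
    have := hd.unique h0
    simp only [Pi.mul_apply, id_eq] at this
    linear_combination this
  have hC := cube_equation h2
  rw [hD3.deriv, (hD2 x hx).deriv, (hD1 x hx).deriv,
    show clausenDiff x = F x ^ 2 - S (4 * x * (1 - x)) from rfl]
  linear_combination (2 * (x * (1 - x)) * F x) * hE' +
    (6 * (x * (1 - x)) * F1 x + 2 * (1 - 2 * x) * F x) * hE x h1 -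
    (4 * (1 - 2 * x)) * hC

/-- **Clausen.** -/
theorem clausen {x : ℝ} (hx0 : 0 ≤ x) (hx : x < 1 / 2) :
    hypF x ^ 2 = powSum cubeCoeff (4 * x * (1 - x)) := by
  have hU0 : (0 : ℝ) ∈ Ioo (-(1 / 5) : ℝ) (1 / 2) := by norm_num
  have hzero : ∀ᶠ y in 𝓝 (0 : ℝ), clausenDiff y = 0 := by
    by_contra hne
    obtain ⟨m, g, hg, hg0, he⟩ :=
      ((analyticAt_clausenDiff hU0).exists_eventuallyEq_pow_smul_nonzero_iff).2 hne
    simp only [sub_zero, smul_eq_mul] at he
    have hm : m ≠ 0 := fun e => hg0 (by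
      have := he.self_of_nhds
      rw [e, pow_zero, one_mul] at this
      rw [← this, clausenDiff, powSum_zero, mul_zero, zero_mul, powSum_zero]
      norm_num [sqCoeff, cubeCoeff, halfCoeff])
    set g1 := fun y => (m : ℝ) * g y + y * deriv g y
    set g2 := fun y => (m : ℝ) * g1 y + y * deriv g1 y
    set g3 := fun y => (m : ℝ) * g2 y + y * deriv g2 y
    have hg1 : AnalyticAt ℝ g1 0 := (analyticAt_const.mul hg).add (analyticAt_id.mul hg.deriv)
    have hg2 : AnalyticAt ℝ g2 0 := (analyticAt_const.mul hg1).add (analyticAt_id.mul hg1.deriv)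
    have hg3 : AnalyticAt ℝ g3 0 := (analyticAt_const.mul hg2).add (analyticAt_id.mul hg2.deriv)
    set D := clausenDiff
    have hA : ∀ᶠ y in 𝓝 (0 : ℝ), y ∈ Ioo (-(1 / 5) : ℝ) (1 / 2) := isOpen_Ioo.mem_nhds hU0
    have e1 : ∀ᶠ y in 𝓝 (0 : ℝ), y * deriv D y = y ^ m * g1 y := by
      filter_upwards [eventually_eventually_nhds.2 he, hA, hg.eventually_analyticAt] with y h1 h2 h3
      exact mul_deriv_pow_smul m (analyticAt_clausenDiff h2).differentiableAt.hasDerivAt
        h3.differentiableAt.hasDerivAt h1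
    have e2 : ∀ᶠ y in 𝓝 (0 : ℝ),
        y * deriv D y + y ^ 2 * deriv (deriv D) y = y ^ m * g2 y := by
      filter_upwards [eventually_eventually_nhds.2 e1, hA, hg1.eventually_analyticAt]
        with y h1 h2 h3
      rw [← mul_deriv_pow_smul m ((hasDerivAt_id y).mul
        (analyticAt_clausenDiff h2).deriv.differentiableAt.hasDerivAt)
        h3.differentiableAt.hasDerivAt h1]
      simp only [id_eq]
      ring
    have e3 : ∀ᶠ y in 𝓝 (0 : ℝ), y * deriv D y + 3 * y ^ 2 * deriv (deriv D) y +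
        y ^ 3 * deriv (deriv (deriv D)) y = y ^ m * g3 y := by
      filter_upwards [eventually_eventually_nhds.2 e2, hA, hg2.eventually_analyticAt]
        with y h1 h2 h3
      have hd := (analyticAt_clausenDiff h2).deriv
      rw [← mul_deriv_pow_smul m (((hasDerivAt_id y).mul hd.differentiableAt.hasDerivAt).add
        ((hasDerivAt_pow 2 y).mul hd.deriv.differentiableAt.hasDerivAt))
        h3.differentiableAt.hasDerivAt h1]
      simp only [id_eq, Nat.cast_ofNat]
      ring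
    set Φ := fun y : ℝ => (1 - y) ^ 2 * (g3 y - 3 * g2 y + 2 * g1 y) +
      3 * (1 - y) * (1 - 2 * y) * (g2 y - g1 y) + (1 - 7 * (y * (1 - y))) * g1 y -
      y * (1 - 2 * y) / 2 * g y
    have hΦ : ∀ᶠ y in 𝓝[≠] (0 : ℝ), Φ y = 0 := by
      filter_upwards [nhdsWithin_le_nhds e1, nhdsWithin_le_nhds e2, nhdsWithin_le_nhds e3,
        nhdsWithin_le_nhds he, nhdsWithin_le_nhds hA, self_mem_nhdsWithin]
        with y k1 k2 k3 k0 hy hy0
      refine (mul_eq_zero.1 (show y ^ m * Φ y = 0 from ?_)).resolve_left (pow_ne_zero m hy0)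
      simp only [Φ]
      linear_combination y * clausenDiff_equation hy -
        (1 - y) ^ 2 * (k3 - 3 * k2 + 2 * k1) - 3 * (1 - y) * (1 - 2 * y) * (k2 - k1) -
        (1 - 7 * (y * (1 - y))) * k1 + y * (1 - 2 * y) / 2 * k0
    have hcont : ContinuousAt Φ 0 := by
      have := hg.continuousAt
      have := hg1.continuousAt
      have := hg2.continuousAt
      have := hg3.continuousAt
      fun_prop
    have h0 : Φ 0 = 0 := tendsto_nhds_unique (hcont.tendsto.mono_left nhdsWithin_le_nhds)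
      (tendsto_const_nhds.congr' (hΦ.mono fun y hy => hy.symm))
    have : (m : ℝ) ^ 3 * g 0 = 0 := by
      simp only [Φ, g3, g2, g1, zero_mul, mul_zero, sub_zero, add_zero, zero_div] at h0
      linear_combination h0
    simp [hm, hg0] at this
  have := AnalyticOnNhd.eqOn_zero_of_preconnected_of_eventuallyEq_zero
    (fun y hy => analyticAt_clausenDiff hy) isPreconnected_Ioo hU0 hzero
    (show x ∈ Ioo (-(1 / 5) : ℝ) (1 / 2) from ⟨by linarith, hx⟩)
  rw [← powSum_sqCoeff]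
  exact sub_eq_zero.1 this

end FA.RamanujanPi

end
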