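import Fermat.Agent.RamanujanPi.EisensteinValue
import Fermat.Agent.RamanujanPi.Clausen
import Fermat.Agent.Root.SummaryHypergeometricPeriod
import Fermat.Agent.Tau.JValues

/-!
# Ramanujan's series for `1 / π`

`G = θ₃²` has `G'/G = π (R - P) / 6` with `P = E₂(i t)`, `R = θ₄⁴ - θ₂⁴`; as `G² = S(4 λ λ')`,
`3 z (1 - 2 λ) S'(z) = P - R`, and the values of `P - R` at `√3`, `√7` are known.
-/

set_option autoImplicit false
set_option linter.style.haveILetI false

noncomputable section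

open Filter Topology Set
open FA.ThetaAGM
open FA.GaussLegendre (axisE)
open FA.Hypergeometric (hypF halfCoeff)
open scoped Real

namespace FA.RamanujanPi

variable {t : ℝ}

theorem hasDerivAt_sq_theta (ht : 0 < t) :
    HasDerivAt (fun s => thetaThree s ^ 2)
      (powSum (dCoeff sqCoeff) (lambdaAxis t) *
        -(π * lambdaAxis t * (1 - lambdaAxis t) * thetaThree t ^ 4)) t := by
  have h := lambdaAxis_mem ht
  refine ((polyBdd_sqCoeff.hasDerivAt (abs_lt.2 ⟨by linarith [h.1], h.2⟩)).comp t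
    (hasDerivAt_lambdaAxis ht)).congr_of_eventuallyEq ?_
  filter_upwards [lt_mem_nhds ht] with s hs
  rw [Function.comp_apply, powSum_sqCoeff, (FA.Summary.jacobi_hypergeometric hs).1]

/-- **The derivative of `θ₃²`**, and `θ₃⁴ (1 - 2 λ) = R`. -/
theorem logDeriv_sq_theta (ht : 0 < t) :
    thetaThree t ^ 4 * (1 - 2 * lambdaAxis t) = axisR t ∧
      powSum (dCoeff sqCoeff) (lambdaAxis t) *
          -(π * lambdaAxis t * (1 - lambdaAxis t) * thetaThree t ^ 4) =
        π / 6 * (axisR t - axisE (2 * t)) * thetaThree t ^ 2 := by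
  set l := lambdaAxis t with hl
  set G := thetaThree t ^ 2 with hG
  set G' := powSum (dCoeff sqCoeff) l * -(π * l * (1 - l) * thetaThree t ^ 4)
  have hG4 : thetaThree t ^ 4 = G ^ 2 := by rw [hG]; ring
  obtain ⟨hl0, hl1⟩ := lambdaAxis_mem ht
  rw [← hl] at hl0 hl1
  have hG0 : 0 < G := pow_pos (thetaThree_pos ht) 2
  have hη := etaAxis_pos ht
  have hdG : HasDerivAt (fun s => thetaThree s ^ 2) G' t := hasDerivAt_sq_theta ht
  have hdl : HasDerivAt lambdaAxis (-(π * l * (1 - l) * G ^ 2)) t :=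
    (hasDerivAt_lambdaAxis ht).congr_deriv (by rw [hl, hG4])
  have hde := hasDerivAt_etaAxis ht
  have h2 : HasDerivAt (fun s : ℝ => s / 2) (1 / 2) t := (hasDerivAt_id t).div_const 2
  have hdh : HasDerivAt (fun s => etaAxis (s / 2))
      (-(π / 12) * axisE t * etaAxis (t / 2) * (1 / 2)) t :=
    (HasDerivAt.comp (h := fun s : ℝ => s / 2) (h₂ := etaAxis) t
      (hasDerivAt_etaAxis (half_pos ht)) h2).congr_deriv
      (by rw [show 2 * (t / 2) = t by ring])
  have hA : ∀ {s : ℝ}, 0 < s → (thetaThree s ^ 2) ^ 6 * (lambdaAxis s * (1 - lambdaAxis s)) =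
      16 * etaAxis s ^ 12 := fun {s} hs => by
    rw [one_sub_lambdaAxis hs, lambdaAxis,
      show 16 * etaAxis s ^ 12 = (2 * etaAxis s ^ 3) ^ 4 by ring, ← theta_product hs]
    have := thetaThree_pos hs
    field_simp
  have hB : ∀ {s : ℝ}, 0 < s → (thetaThree s ^ 2) ^ 2 * (1 - lambdaAxis s) * etaAxis s ^ 4 =
      etaAxis (s / 2) ^ 8 := fun {s} hs => by
    rw [one_sub_lambdaAxis hs, thetaFour_eq_eta hs]
    have := thetaThree_pos hs
    have := etaAxis_pos hs
    field_simp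
  have eA := ((hdG.pow 6).mul (hdl.mul (hdl.const_sub 1))).unique
    (((hde.pow 12).const_mul 16).congr_of_eventuallyEq
      ((lt_mem_nhds ht).mono fun s hs => hA hs))
  have eB := (((hdG.pow 2).mul (hdl.const_sub 1)).mul (hde.pow 4)).unique
    ((hdh.pow 8).congr_of_eventuallyEq ((lt_mem_nhds ht).mono fun s hs => hB hs))
  simp only [Pi.pow_apply, Pi.mul_apply, Nat.cast_ofNat, ← hl, ← hG, Nat.add_one_sub_one] at eA eB
  have kA : 6 * G' = π * G * ((1 - 2 * l) * G ^ 2 - axisE (2 * t)) := by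
    refine mul_left_cancel₀ (mul_ne_zero (pow_ne_zero 5 hG0.ne')
      (mul_ne_zero hl0.ne' (sub_ne_zero.2 hl1.ne'))) ?_
    have h := hA ht
    rw [← hl, ← hG] at h
    linear_combination eA + (π * axisE (2 * t)) * h
  have kB : 2 * G' * (1 - l) + π * l * (1 - l) * G ^ 3 -
      π / 3 * G * (1 - l) * axisE (2 * t) = -(π / 3) * axisE t * G * (1 - l) := by
    refine mul_left_cancel₀ (mul_ne_zero hG0.ne' (pow_ne_zero 4 hη.ne')) ?_
    have h := hB ht
    rw [← hl, ← hG] at h
    linear_combination eB + (π * axisE t / 3) * h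
  have hR : thetaThree t ^ 4 * (1 - 2 * l) = axisR t := by
    have h3 := FA.GaussLegendre.three_thetaThree_pow ht
    rw [hG4] at h3 ⊢
    refine mul_left_cancel₀ (mul_ne_zero (mul_ne_zero Real.pi_ne_zero hG0.ne')
      (sub_ne_zero.2 hl1.ne')) ?_
    rw [axisR]
    linear_combination (2 * (1 - l)) * kA - 6 * kB + (π * G * (1 - l)) * h3
  refine ⟨hR, ?_⟩
  rw [← hR, hG4]
  linear_combination (1 / 6 : ℝ) * kA

theorem lambdaAxis_lt_half (ht : 1 < t) : lambdaAxis t < 1 / 2 := by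
  have h := strictAntiOn_lambdaAxis (mem_Ioi.2 one_pos) (mem_Ioi.2 (one_pos.trans ht)) ht
  refine h.trans_eq ?_
  have := thetaThree_pos (one_pos : (0 : ℝ) < 1)
  rw [lambdaAxis, FA.GaussLegendre.thetaTwo_one.1]
  field_simp

/-- **The derivative of the cubic series at `4 λ λ'`.** -/
theorem cube_sum_deriv (ht : 1 < t) :
    (0 < 1 - 2 * lambdaAxis t) ∧
    powSum cubeCoeff (4 * lambdaAxis t * (1 - lambdaAxis t)) * (1 - 2 * lambdaAxis t) = axisR t ∧
      3 * (1 - 2 * lambdaAxis t) *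
          powSum (fun n => (n : ℝ) * cubeCoeff n) (4 * lambdaAxis t * (1 - lambdaAxis t)) =
        axisE (2 * t) - axisR t := by
  have ht0 := one_pos.trans ht
  obtain ⟨hR, hd⟩ := logDeriv_sq_theta ht0
  have hl2 := lambdaAxis_lt_half ht
  obtain ⟨hl0, hl1⟩ := lambdaAxis_mem ht0
  set l := lambdaAxis t with hl
  have hz : |4 * l * (1 - l)| < 1 := by
    rw [abs_lt]
    constructor <;> nlinarith [mul_pos (sub_pos.2 hl2) (sub_pos.2 hl2)]
  have hc : powSum cubeCoeff (4 * l * (1 - l)) = (thetaThree t ^ 2) ^ 2 := by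
    rw [← clausen hl0.le hl2, hl, (FA.Summary.jacobi_hypergeometric ht0).1]
  refine ⟨by linarith, by rw [hc, ← hR]; ring, ?_⟩
  have hdl := hasDerivAt_lambdaAxis ht0
  have h1 := ((polyBdd_cubeCoeff.hasDerivAt hz).comp t
    ((hdl.const_mul 4).mul (hdl.const_sub 1))).congr_of_eventuallyEq
    (f₁ := fun s => (thetaThree s ^ 2) ^ 2) <| by
      filter_upwards [lt_mem_nhds ht] with s hs
      obtain ⟨k0, -⟩ := lambdaAxis_mem (one_pos.trans hs)
      rw [← (FA.Summary.jacobi_hypergeometric (one_pos.trans hs)).1,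
        clausen k0.le (lambdaAxis_lt_half hs)]
      rfl
  have e := h1.unique ((hasDerivAt_sq_theta ht0).pow 2)
  simp only [← hl, Nat.cast_ofNat, Nat.add_one_sub_one, pow_one, hd] at e
  rw [← polyBdd_cubeCoeff.mul_deriv hz]
  refine mul_left_cancel₀ (mul_ne_zero Real.pi_ne_zero
    (pow_ne_zero 4 (thetaThree_pos ht0).ne')) ?_
  linear_combination -3 * e

/-- `λ (1 - λ)` from `j`. -/
theorem mul_lambdaAxis (ht : 1 < t) {J u : ℝ}
    (hj : FA.ModField.jfun (imPt t (one_pos.trans ht)) = (J : ℂ)) (hu0 : 0 < u) (hu1 : u < 1)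
    (hu : 256 * (1 - u) ^ 3 = J * u ^ 2) :
    lambdaAxis t * (1 - lambdaAxis t) = u := by
  have ht0 := one_pos.trans ht
  obtain ⟨h0, h1⟩ := lambdaAxis_mem ht0
  rw [jfun_imPt ht0 (rfl : lambdaAxis t = _), Complex.ofReal_inj,
    div_eq_iff (mul_ne_zero (pow_ne_zero 2 h0.ne') (pow_ne_zero 2 (sub_ne_zero.2 h1.ne')))] at hj
  set v := lambdaAxis t * (1 - lambdaAxis t) with hv
  have hv0 : 0 < v := mul_pos h0 (sub_pos.2 h1)
  have hv1 : v < 1 := by
    rw [hv]
    calc lambdaAxis t * (1 - lambdaAxis t) < 1 * (1 - lambdaAxis t) := by gcongr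
      _ ≤ 1 := by linarith
  have hvJ : 256 * (1 - v) ^ 3 = J * v ^ 2 := by
    rw [hv]; linear_combination hj
  have hJ : 0 < J := by
    by_contra hc
    nlinarith [pow_pos (sub_pos.2 hu1) 3, pow_pos hu0 2]
  rcases lt_trichotomy v u with h | h | h
  · have a1 : (1 - u) ^ 3 < (1 - v) ^ 3 := by gcongr
    nlinarith [mul_pos hJ (show 0 < u ^ 2 - v ^ 2 by nlinarith)]
  · exact h
  · have a1 : (1 - v) ^ 3 < (1 - u) ^ 3 := by gcongr
    nlinarith [mul_pos hJ (show 0 < v ^ 2 - u ^ 2 by nlinarith)]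

/-- **The singular values of `λ λ'`.** -/
theorem mul_lambda_values :
    lambdaAxis (√3) * (1 - lambdaAxis (√3)) = 1 / 16 ∧
      lambdaAxis (√7) * (1 - lambdaAxis (√7)) = 1 / 256 := by
  constructor
  · refine mul_lambdaAxis (J := 54000) (Real.lt_sqrt_of_sq_lt (by norm_num)) ?_ (by norm_num)
      (by norm_num) (by norm_num)
    have e : √((12 : ℕ) : ℝ) = 2 * √3 := by
      rw [show ((12 : ℕ) : ℝ) = 2 ^ 2 * 3 by norm_num, Real.sqrt_mul (by norm_num),
        Real.sqrt_sq two_pos.le]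
    refine Eq.trans (congrArg FA.ModField.jfun (UpperHalfPlane.ext ?_))
      (FA.JValues.value_12.trans (by norm_num))
    rw [coe_imPt, FA.JValues.pt, UpperHalfPlane.coe_mk, e]
    apply Complex.ext <;> simp
  · refine mul_lambdaAxis (J := 16581375) (Real.lt_sqrt_of_sq_lt (by norm_num)) ?_ (by norm_num)
      (by norm_num) (by norm_num)
    have e : √((28 : ℕ) : ℝ) = 2 * √7 := by
      rw [show ((28 : ℕ) : ℝ) = 2 ^ 2 * 7 by norm_num, Real.sqrt_mul (by norm_num),
        Real.sqrt_sq two_pos.le]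
    refine Eq.trans (congrArg FA.ModField.jfun (UpperHalfPlane.ext ?_))
      (FA.JValues.value_28.trans (by norm_num))
    rw [coe_imPt, FA.JValues.pt, UpperHalfPlane.coe_mk, e]
    apply Complex.ext <;> simp

/-- The series with linear factor. -/
theorem hasSum_linear {z : ℝ} (hz : |z| < 1) (a b : ℝ) :
    HasSum (fun n : ℕ => cubeCoeff n * (a * n + b) * z ^ n)
      (a * powSum (fun n => (n : ℝ) * cubeCoeff n) z + b * powSum cubeCoeff z) :=
  (((polyBdd_cubeCoeff.mulNat.summable hz).hasSum.mul_left a).add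
    ((polyBdd_cubeCoeff.summable hz).hasSum.mul_left b)).congr_fun fun n => by ring

/-- **Ramanujan**: `∑ c_n (6 n + 1) / 4^n = 4 / π`. -/
theorem hasSum_four :
    HasSum (fun n : ℕ => cubeCoeff n * (6 * n + 1) / 4 ^ n) (4 / π) := by
  obtain ⟨hpos, hS, hD⟩ := cube_sum_deriv (t := √3) (Real.lt_sqrt_of_sq_lt (by norm_num))
  have hl := mul_lambda_values.1
  set l := lambdaAxis (√3)
  have hz : 4 * l * (1 - l) = 1 / 4 := by linear_combination 4 * hl
  rw [hz] at hS hD
  have hs : 1 - 2 * l = √3 / 2 := by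
    refine (pow_left_inj₀ hpos.le (by positivity) two_ne_zero).1 ?_
    rw [div_pow, Real.sq_sqrt three_pos.le]
    linear_combination -hz
  have hE := axisE_sqrt_three
  suffices h : 6 * powSum (fun n => (n : ℝ) * cubeCoeff n) (1 / 4) +
      1 * powSum cubeCoeff (1 / 4) = 4 / π by
    rw [← h]
    refine (hasSum_linear (z := 1 / 4) (by norm_num [abs_of_pos]) 6 1).congr_fun fun n => ?_
    rw [div_pow, one_pow]
    ring
  refine mul_left_cancel₀ (Real.sqrt_ne_zero'.2 three_pos) ?_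
  rw [hs] at hS hD
  linear_combination 4 * hD + 2 * hS + 2 * hE

/-- **Ramanujan**: `∑ c_n (42 n + 5) / 64^n = 16 / π`. -/
theorem hasSum_sixteen :
    HasSum (fun n : ℕ => cubeCoeff n * (42 * n + 5) / 64 ^ n) (16 / π) := by
  obtain ⟨hpos, hS, hD⟩ := cube_sum_deriv (t := √7) (Real.lt_sqrt_of_sq_lt (by norm_num))
  have hl := mul_lambda_values.2
  set l := lambdaAxis (√7)
  have hz : 4 * l * (1 - l) = 1 / 64 := by linear_combination 4 * hl
  rw [hz] at hS hD
  have hs : 1 - 2 * l = 3 * √7 / 8 := by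
    refine (pow_left_inj₀ hpos.le (by positivity) two_ne_zero).1 ?_
    rw [div_pow, mul_pow, Real.sq_sqrt (by norm_num : (0 : ℝ) ≤ 7)]
    linear_combination -hz
  have hE := axisE_sqrt_seven
  suffices h : 42 * powSum (fun n => (n : ℝ) * cubeCoeff n) (1 / 64) +
      5 * powSum cubeCoeff (1 / 64) = 16 / π by
    rw [← h]
    refine (hasSum_linear (z := 1 / 64) (by norm_num [abs_of_pos]) 42 5).congr_fun fun n => ?_
    rw [div_pow, one_pow]
    ring
  refine mul_left_cancel₀ (Real.sqrt_ne_zero'.2 (show (0 : ℝ) < 7 by norm_num)) ?_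
  rw [hs] at hS hD
  linear_combination 112 / 3 * hD + 40 / 3 * hS + 8 / 3 * hE

end FA.RamanujanPi

end
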