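import Fermat.Agent.GaussLegendre.Series
import Mathlib.NumberTheory.ArithmeticFunction.Misc

/-!
# `E₂` at `√-3` and `√-7`

`E₂(u) + E₂(u + 1/2) = 6 E₂(2 u) - 4 E₂(4 u)`, and `E₂(-1/u) = u² E₂(u) + 6 u / (π i)` at
`(1 + √-3) / 2`, `(1 + √-7) / 4`, whose inverses are their translates or those of their doubles.
-/

set_option autoImplicit false
set_option linter.style.haveILetI false

noncomputable section

open UpperHalfPlane hiding I
open Complex (I)
open EisensteinSeries (E2)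
open FA.GaussLegendre (axisE axisPt E2_axisPt)
open scoped Real MatrixGroups ModularForm ArithmeticFunction.sigma

namespace FA.RamanujanPi

/-- The coefficient of `q ^ m` in `E₂`. -/
def eCoeff (m : ℕ) : ℂ := if m = 0 then 1 else -24 * (σ 1 m : ℂ)

theorem hasSum_E2 {z : ℍ} {q : ℂ} (hq : Complex.exp (2 * π * I * (z : ℂ)) = q) :
    HasSum (fun m : ℕ => eCoeff m * q ^ m) (E2 z) := by
  refine (EisensteinSeries.hasSum_qExpansion_E2 (z := z)).congr_fun fun m => ?_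
  simp [eCoeff, hq]

theorem eCoeff_two_mul (m : ℕ) :
    2 * eCoeff (2 * m) = 6 * eCoeff m - 4 * (if Even m then eCoeff (m / 2) else 0) := by
  rcases eq_or_ne m 0 with rfl | hm
  · norm_num [eCoeff]
  obtain ⟨r, j, hj, rfl⟩ := Nat.exists_eq_two_pow_mul_odd hm
  have hc : ∀ e : ℕ, (σ 1 (2 ^ e * j) : ℂ) = (2 ^ (e + 1) - 1) * (σ 1 j : ℂ) := fun e => by
    rw [ArithmeticFunction.isMultiplicative_sigma.map_mul_of_coprime
      ((Nat.coprime_two_left.2 hj).pow_left e), ArithmeticFunction.sigma_apply_prime_pow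
      Nat.prime_two]
    push_cast
    simp only [mul_one]
    have h := geom_sum_mul (2 : ℂ) (e + 1)
    rw [show (2 : ℂ) - 1 = 1 by norm_num, mul_one] at h
    rw [h]
  have hj0 : j ≠ 0 := hj.pos.ne'
  have hne : ∀ e : ℕ, 2 ^ e * j ≠ 0 := fun e => mul_ne_zero (pow_ne_zero e two_ne_zero) hj0
  rw [← mul_assoc, ← pow_succ', eCoeff, eCoeff, if_neg (hne _), if_neg (hne _), hc, hc]
  rcases r with _ | r
  · rw [if_neg (by rw [pow_zero, one_mul, Nat.not_even_iff_odd]; exact hj)]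
    ring
  · rw [if_pos ⟨2 ^ r * j, by ring⟩,
      show 2 ^ (r + 1) * j / 2 = 2 ^ r * j by rw [pow_succ', mul_assoc]; omega, eCoeff,
      if_neg (hne _), hc]
    ring

/-- **The half shift.** -/
theorem E2_add_half {u u' a b : ℍ} (hu' : (u' : ℂ) = u + 1 / 2) (ha : (a : ℂ) = 2 * u)
    (hb : (b : ℂ) = 4 * u) : E2 u + E2 u' = 6 * E2 a - 4 * E2 b := by
  set q := Complex.exp (2 * π * I * (u : ℂ))
  have h1 := hasSum_E2 (z := u) (q := q) rfl
  have h2 := hasSum_E2 (z := u') (q := -q) (by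
    rw [hu', mul_add, Complex.exp_add, show 2 * π * I * (1 / 2 : ℂ) = π * I by ring,
      Complex.exp_pi_mul_I, mul_neg_one])
  have h3 := hasSum_E2 (z := a) (q := q ^ 2) (by
    rw [ha, ← Complex.exp_nat_mul]; congr 1; push_cast; ring)
  have h4 := hasSum_E2 (z := b) (q := q ^ 4) (by
    rw [hb, ← Complex.exp_nat_mul]; congr 1; push_cast; ring)
  have hinj : Function.Injective fun k : ℕ => 2 * k := fun a b h => by simpa using h
  have h4' : HasSum (fun k : ℕ => if Even k then eCoeff (k / 2) * (q ^ 2) ^ k else 0) (E2 b) := by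
    refine (hinj.hasSum_iff fun k hk => if_neg fun ⟨j, hj⟩ => hk ⟨j, by simp only; omega⟩).1
      (h4.congr_fun fun k => ?_)
    simp only [Function.comp_apply, even_two_mul, if_true, Nat.mul_div_cancel_left k two_pos]
    ring
  have h12 := h1.add h2
  rw [← hinj.hasSum_iff fun k hk => ?_] at h12
  · refine h12.unique (((h3.mul_left 6).sub (h4'.mul_left 4)).congr_fun fun k => ?_)
    simp only [Function.comp_apply, pow_mul, neg_sq]
    have h := eCoeff_two_mul k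
    split_ifs at h ⊢ <;> linear_combination ((q ^ 2) ^ k) * h
  · have hodd : Odd k := Nat.not_even_iff_odd.1 fun ⟨j, hj⟩ => hk ⟨j, by simp only; omega⟩
    simp [hodd.neg_pow]

theorem E2_neg_inv {u v : ℍ} (hv : (v : ℂ) = -1 / (u : ℂ)) :
    E2 v = (u : ℂ) ^ 2 * E2 u + 6 * (u : ℂ) / (π * I) := by
  have h := congrFun (EisensteinSeries.E2_slash_action ModularGroup.S) u
  rw [ModularForm.SL_slash_apply] at h
  have hs : ModularGroup.S • u = v := by
    ext
    rw [modular_S_smul, hv]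
    simp [div_eq_mul_inv]
  rw [hs] at h
  have hd : UpperHalfPlane.denom (Matrix.SpecialLinearGroup.toGL
      ((Matrix.SpecialLinearGroup.map (Int.castRingHom ℝ)) ModularGroup.S)) u = (u : ℂ) := by
    simp [UpperHalfPlane.denom, ModularGroup.coe_S]
  simp only [Pi.sub_apply, Pi.smul_apply, EisensteinSeries.D2_S, riemannZeta_two, smul_eq_mul,
    hd, zpow_neg, zpow_ofNat] at h
  have hπ : (π : ℂ) ≠ 0 := Complex.ofReal_ne_zero.mpr Real.pi_ne_zero
  have hu := u.ne_zero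
  field_simp at h ⊢
  linear_combination I * h - 6 * (u : ℂ) * Complex.I_mul_I

theorem E2_add_one {u v : ℍ} (hv : (v : ℂ) = u + 1) : E2 v = E2 u :=
  (hasSum_E2 (z := v) (q := Complex.exp (2 * π * I * (u : ℂ))) (by
    rw [hv, mul_add, mul_one, Complex.exp_add, Complex.exp_two_pi_mul_I, mul_one])).unique
    (hasSum_E2 rfl)

/-- `θ₄⁴ - θ₂⁴` on the axis, as values of `E₂`. -/
def axisR (t : ℝ) : ℝ := axisE t - 4 * axisE (2 * t) + 4 * axisE (4 * t)

/-- `E₂(1/2 + i t / 2) = 2 E₂(i t) - R(t)`. -/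
theorem E2_half_point {t : ℝ} (ht : 0 < t) {v : ℍ}
    (hv : (v : ℂ) = 1 / 2 + (t : ℂ) / 2 * I) :
    E2 v = ((2 * axisE (2 * t) - axisR t : ℝ) : ℂ) := by
  have h := E2_add_half (u := axisPt t ht) (u' := v) (a := axisPt (2 * t) (by positivity))
    (b := axisPt (4 * t) (by positivity)) (by rw [hv, FA.GaussLegendre.coe_axisPt]; ring)
    (by simp only [FA.GaussLegendre.coe_axisPt]; push_cast; ring)
    (by simp only [FA.GaussLegendre.coe_axisPt]; push_cast; ring)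
  simp only [E2_axisPt] at h
  rw [axisR]
  push_cast
  linear_combination h

/-- **At `√-3`.** -/
theorem axisE_sqrt_three :
    2 * axisE (2 * Real.sqrt 3) = axisR (Real.sqrt 3) + 2 * Real.sqrt 3 / π := by
  have ht : (0 : ℝ) < Real.sqrt 3 := Real.sqrt_pos.2 three_pos
  let v : ℍ := ⟨1 / 2 + (Real.sqrt 3 : ℂ) / 2 * I, by simp [ht]⟩
  let u : ℍ := ⟨-1 / 2 + (Real.sqrt 3 : ℂ) / 2 * I, by simp [Complex.div_ofNat_im, ht]⟩
  have hv : (v : ℂ) = 1 / 2 + (Real.sqrt 3 : ℂ) / 2 * I := rfl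
  have hu : (u : ℂ) = -1 / 2 + (Real.sqrt 3 : ℂ) / 2 * I := rfl
  have hs : (Real.sqrt 3 : ℂ) ^ 2 = 3 := by
    rw [← Complex.ofReal_pow, Real.sq_sqrt three_pos.le]; norm_num
  have h1 := E2_neg_inv (u := v) (v := u) (by
    rw [eq_div_iff v.ne_zero, hv, hu]
    linear_combination (I ^ 2 / 4) * hs + (3 / 4 : ℂ) * Complex.I_sq)
  rw [← E2_add_one (u := u) (v := v) (by rw [hu, hv]; ring), E2_half_point ht hv, hv] at h1
  set e : ℝ := 2 * axisE (2 * Real.sqrt 3) - axisR (Real.sqrt 3) with he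
  have hπ : (π : ℂ) ≠ 0 := Complex.ofReal_ne_zero.mpr Real.pi_ne_zero
  have hne : 2 * (Real.sqrt 3 : ℂ) + 6 * I ≠ 0 := fun h0 => by
    have := congrArg Complex.im h0
    simp at this
  field_simp at h1
  have key : (2 * (Real.sqrt 3 : ℂ) + 6 * I) * ((e : ℂ) * π - 2 * Real.sqrt 3) = 0 := by
    linear_combination h1 -
      (-2 * (Real.sqrt 3 : ℂ) - 3 * I) * (e : ℂ) * π * Complex.I_mul_I -
      (4 - I ^ 3 * (e : ℂ) * π) * hs
  have hr : e * π = 2 * Real.sqrt 3 := by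
    have := (mul_eq_zero.1 key).resolve_left hne
    rw [sub_eq_zero] at this
    exact_mod_cast this
  rw [he] at hr
  field_simp
  linear_combination hr

/-- **At `√-7`.** -/
theorem axisE_sqrt_seven :
    14 * axisE (2 * Real.sqrt 7) = 9 * axisR (Real.sqrt 7) + 6 * Real.sqrt 7 / π := by
  have ht : (0 : ℝ) < Real.sqrt 7 := Real.sqrt_pos.2 (by norm_num)
  let w : ℍ := ⟨1 / 4 + (Real.sqrt 7 : ℂ) / 4 * I, by simp [ht]⟩
  let w' : ℍ := ⟨-1 / 4 + (Real.sqrt 7 : ℂ) / 4 * I, by simp [Complex.div_ofNat_im, ht]⟩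
  let v : ℍ := ⟨1 / 2 + (Real.sqrt 7 : ℂ) / 2 * I, by simp [ht]⟩
  let v' : ℍ := ⟨-1 / 2 + (Real.sqrt 7 : ℂ) / 2 * I, by simp [Complex.div_ofNat_im, ht]⟩
  let d : ℍ := ⟨-1 + (Real.sqrt 7 : ℂ) * I, by simp [ht]⟩
  have hw : (w : ℂ) = 1 / 4 + (Real.sqrt 7 : ℂ) / 4 * I := rfl
  have hw' : (w' : ℂ) = -1 / 4 + (Real.sqrt 7 : ℂ) / 4 * I := rfl
  have hv : (v : ℂ) = 1 / 2 + (Real.sqrt 7 : ℂ) / 2 * I := rfl
  have hv' : (v' : ℂ) = -1 / 2 + (Real.sqrt 7 : ℂ) / 2 * I := rfl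
  have hd : (d : ℂ) = -1 + (Real.sqrt 7 : ℂ) * I := rfl
  have hs : (Real.sqrt 7 : ℂ) ^ 2 = 7 := by
    rw [← Complex.ofReal_pow, Real.sq_sqrt (by norm_num : (0 : ℝ) ≤ 7)]; norm_num
  have evv : E2 v' = E2 v := (E2_add_one (u := v') (v := v) (by rw [hv, hv']; ring)).symm
  have edd : E2 d = (axisE (2 * Real.sqrt 7) : ℂ) := by
    rw [← E2_axisPt (mul_pos two_pos ht), ← E2_add_one (u := d)
      (v := axisPt (2 * Real.sqrt 7) (mul_pos two_pos ht))
      (by rw [hd, FA.GaussLegendre.coe_axisPt]; push_cast; ring)]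
  have h1 := E2_neg_inv (u := w) (v := v') (by
    rw [eq_div_iff w.ne_zero, hw, hv']
    linear_combination (I ^ 2 / 8) * hs + (7 / 8 : ℂ) * Complex.I_sq)
  have h2 := E2_neg_inv (u := v) (v := w') (by
    rw [eq_div_iff v.ne_zero, hv, hw']
    linear_combination (I ^ 2 / 8) * hs + (7 / 8 : ℂ) * Complex.I_sq)
  have h3 := E2_add_half (u := w') (u' := w) (a := v') (b := d) (by rw [hw, hw']; ring)
    (by rw [hv', hw']; ring) (by rw [hd, hw']; ring)
  rw [evv] at h1 h3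
  rw [edd] at h3
  rw [E2_half_point ht hv] at h1 h2 h3
  set P := axisE (2 * Real.sqrt 7)
  set R := axisR (Real.sqrt 7)
  rw [hw] at h1
  rw [hv] at h2
  rw [h2] at h3
  set c : ℂ := 1 / 4 + (Real.sqrt 7 : ℂ) / 4 * I with hc
  rw [show (1 / 2 + (Real.sqrt 7 : ℂ) / 2 * I : ℂ) = 2 * c by rw [hc]; ring] at h3
  have hπ : (π : ℂ) ≠ 0 := Complex.ofReal_ne_zero.mpr Real.pi_ne_zero
  field_simp at h1 h3
  push_cast at h1 h3
  set e : ℂ := 2 * (P : ℂ) - R
  have k1 : (1 - 2 * c ^ 2) ^ 2 * e * (π * I) = -2 * c ^ 2 * R * (π * I) + 6 * c * (1 - 2 * c ^ 2) := by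
    linear_combination h1 + c ^ 2 * h3
  have hc2 : c ^ 2 = (-3 + (Real.sqrt 7 : ℂ) * I) / 8 := by
    rw [hc]
    linear_combination (I ^ 2 / 16) * hs + (7 / 16 : ℂ) * Complex.I_sq
  rw [hc2, hc] at k1
  have hne : 21 - 7 * (Real.sqrt 7 : ℂ) * I ≠ 0 := fun h0 => by
    have := congrArg Complex.re h0
    simp at this
  have key : (21 - 7 * (Real.sqrt 7 : ℂ) * I) *
      (I * (7 * e * π - 2 * (R : ℂ) * π - 6 * (Real.sqrt 7 : ℂ))) = 0 := by
    linear_combination 56 * k1 + (21 - 7 * I * (P : ℂ) * π + 7 / 2 * I * (R : ℂ) * π) *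
      (I ^ 2 * hs + 7 * Complex.I_sq)
  have hr : 7 * (2 * P - R) * π - 2 * R * π = 6 * Real.sqrt 7 := by
    have := ((mul_eq_zero.1 ((mul_eq_zero.1 key).resolve_left hne)).resolve_left Complex.I_ne_zero)
    rw [sub_eq_zero] at this
    replace this : 7 * (2 * (P : ℂ) - R) * π - 2 * (R : ℂ) * π = 6 * (Real.sqrt 7 : ℂ) := by
      linear_combination this
    exact_mod_cast this
  field_simp
  linear_combination hr

end FA.RamanujanPi

end
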