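import Fermat.Agent.Hypergeometric.Period
import Mathlib.Analysis.Calculus.SmoothSeries
import Mathlib.Analysis.Analytic.IteratedFDeriv
import Mathlib.Analysis.SpecificLimits.Normed

/-!
# Power series with coefficients of polynomial growth

`powSum a` is analytic on `(-1, 1)` with derivative `powSum (dCoeff a)`, and
`x (powSum a)' = powSum (n a_n)`.
-/

set_option autoImplicit false

noncomputable section

open Filter Topology
open scoped NNReal ENNReal

namespace FA.RamanujanPi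

/-- `∑ a_n x^n`. -/
def powSum (a : ℕ → ℝ) (x : ℝ) : ℝ := ∑' n : ℕ, a n * x ^ n

/-- Polynomial growth. -/
def PolyBdd (a : ℕ → ℝ) : Prop := ∃ (C : ℝ) (k : ℕ), ∀ n, |a n| ≤ C * ((n : ℝ) + 1) ^ k

/-- The coefficients of the derivative. -/
def dCoeff (a : ℕ → ℝ) (n : ℕ) : ℝ := ((n : ℝ) + 1) * a (n + 1)

variable {a b : ℕ → ℝ}

theorem polyBdd_of_abs_le_one (h : ∀ n, |a n| ≤ 1) : PolyBdd a :=
  ⟨1, 0, fun n => by simpa using h n⟩

theorem PolyBdd.dCoeff (h : PolyBdd a) : PolyBdd (dCoeff a) := by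
  obtain ⟨C, k, h⟩ := h
  have hC : 0 ≤ C := by simpa using (abs_nonneg _).trans (h 0)
  refine ⟨C * 2 ^ k, k + 1, fun n => ?_⟩
  have hn : 0 ≤ (n : ℝ) + 1 := by positivity
  rw [FA.RamanujanPi.dCoeff, abs_mul, abs_of_nonneg hn]
  calc ((n : ℝ) + 1) * |a (n + 1)| ≤ ((n : ℝ) + 1) * (C * (((n + 1 : ℕ) : ℝ) + 1) ^ k) := by
        gcongr; exact h _
    _ ≤ ((n : ℝ) + 1) * (C * (2 * ((n : ℝ) + 1)) ^ k) := by
        gcongr
        push_cast
        linarith [n.cast_nonneg (α := ℝ)]
    _ = _ := by rw [mul_pow]; ring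

theorem PolyBdd.mulNat (h : PolyBdd a) : PolyBdd fun n => (n : ℝ) * a n := by
  obtain ⟨C, k, h⟩ := h
  have hC : 0 ≤ C := by simpa using (abs_nonneg _).trans (h 0)
  refine ⟨C, k + 1, fun n => ?_⟩
  rw [abs_mul, Nat.abs_cast]
  calc (n : ℝ) * |a n| ≤ ((n : ℝ) + 1) * (C * ((n : ℝ) + 1) ^ k) := by
        gcongr
        · linarith
        · exact h n
    _ = _ := by ring

theorem PolyBdd.summable_abs (h : PolyBdd a) {r : ℝ} (hr0 : 0 ≤ r) (hr : r < 1) :
    Summable fun n : ℕ => |a n| * r ^ n := by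
  obtain ⟨C, k, h⟩ := h
  refine Summable.of_nonneg_of_le (fun n => by positivity)
    (fun n => mul_le_mul_of_nonneg_right (h n) (pow_nonneg hr0 n)) ?_
  simp only [mul_assoc]
  refine Summable.mul_left C ?_
  refine (Summable.mul_left ((2 : ℝ) ^ k) ((summable_pow_mul_geometric_of_norm_lt_one k
    (show ‖r‖ < 1 by rwa [Real.norm_of_nonneg hr0])).add
      (summable_geometric_of_lt_one hr0 hr))).of_nonneg_of_le (fun n => by positivity) fun n => ?_
  rw [show (2 : ℝ) ^ k * ((n : ℝ) ^ k * r ^ n + r ^ n) = 2 ^ k * ((n : ℝ) ^ k + 1) * r ^ n by ring]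
  refine mul_le_mul_of_nonneg_right ?_ (pow_nonneg hr0 n)
  rcases Nat.eq_zero_or_pos n with rfl | hn
  · simp only [CharP.cast_eq_zero, zero_add, one_pow]
    nlinarith [one_le_pow₀ (show (1 : ℝ) ≤ 2 by norm_num) (n := k),
      pow_nonneg (le_refl (0 : ℝ)) k]
  · have : (1 : ℝ) ≤ n := by exact_mod_cast hn
    calc ((n : ℝ) + 1) ^ k ≤ (2 * (n : ℝ)) ^ k := by gcongr; linarith
      _ ≤ 2 ^ k * ((n : ℝ) ^ k + 1) := by rw [mul_pow]; gcongr; linarith

theorem PolyBdd.summable (h : PolyBdd a) {x : ℝ} (hx : |x| < 1) :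
    Summable fun n : ℕ => a n * x ^ n := by
  refine Summable.of_norm ?_
  simpa [abs_mul, abs_pow] using h.summable_abs (abs_nonneg x) hx

/-- **The derivative.** -/
theorem PolyBdd.hasDerivAt (h : PolyBdd a) {x : ℝ} (hx : |x| < 1) :
    HasDerivAt (powSum a) (powSum (FA.RamanujanPi.dCoeff a) x) x := by
  obtain ⟨r, hxr, hr⟩ := exists_between hx
  have hr0 : 0 ≤ r := (abs_nonneg x).trans hxr.le
  have hd := h.dCoeff
  have hu : Summable fun n : ℕ => |a n| * n * r ^ (n - 1) := by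
    rw [← summable_nat_add_iff 1]
    refine (hd.summable_abs hr0 hr).congr fun n => ?_
    rw [FA.RamanujanPi.dCoeff, abs_mul, abs_of_nonneg (by positivity : 0 ≤ (n : ℝ) + 1)]
    push_cast
    ring_nf
  have key := hasDerivAt_tsum_of_isPreconnected hu Metric.isOpen_ball
    (convex_ball (0 : ℝ) r).isPreconnected (g := fun n y => a n * y ^ n)
    (g' := fun n y => a n * ((n : ℝ) * y ^ (n - 1)))
    (fun n y _ => (hasDerivAt_pow n y).const_mul (a n))
    (fun n y hy => ?_) (y₀ := 0) (Metric.mem_ball_self (lt_of_le_of_lt (abs_nonneg x) hxr))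
    (h.summable (by simp)) (by simpa using hxr : x ∈ Metric.ball (0 : ℝ) r)
  · refine key.congr_deriv ?_
    have hs : Summable fun n : ℕ => a n * ((n : ℝ) * x ^ (n - 1)) :=
      hu.of_norm_bounded fun n => by
        rw [norm_mul, norm_mul, norm_pow, Real.norm_natCast, Real.norm_eq_abs, Real.norm_eq_abs,
          mul_assoc]
        gcongr
    rw [hs.tsum_eq_zero_add, powSum]
    simp only [CharP.cast_eq_zero, zero_mul, mul_zero, zero_add]
    refine tsum_congr fun n => ?_
    rw [FA.RamanujanPi.dCoeff, Nat.add_sub_cancel]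
    push_cast
    ring
  · rw [norm_mul, norm_mul, norm_pow, Real.norm_natCast, Real.norm_eq_abs, Real.norm_eq_abs,
      mul_assoc]
    gcongr
    have : |y| < r := by simpa using hy
    exact this.le

/-- `powSum b = b 0 + x powSum (b (n + 1))`. -/
theorem PolyBdd.shift (h : PolyBdd b) {x : ℝ} (hx : |x| < 1) :
    powSum b x = b 0 + x * powSum (fun n => b (n + 1)) x := by
  rw [powSum, (h.summable hx).tsum_eq_zero_add, powSum, ← tsum_mul_left, pow_zero, mul_one]
  refine congrArg _ (tsum_congr fun n => ?_)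
  ring

theorem PolyBdd.mul_deriv (h : PolyBdd a) {x : ℝ} (hx : |x| < 1) :
    x * powSum (FA.RamanujanPi.dCoeff a) x = powSum (fun n => (n : ℝ) * a n) x := by
  rw [h.mulNat.shift hx, Nat.cast_zero, zero_mul, zero_add]
  simp only [Nat.cast_add, Nat.cast_one]
  rfl

theorem PolyBdd.analyticAt (h : PolyBdd a) {x : ℝ} (hx : |x| < 1) :
    AnalyticAt ℝ (powSum a) x := by
  set p := FormalMultilinearSeries.ofScalars ℝ a with hp
  obtain ⟨r, hxr, hr⟩ := exists_between hx
  have hr0 : 0 ≤ r := (abs_nonneg x).trans hxr.le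
  let r' : ℝ≥0 := ⟨r, hr0⟩
  have hrad : (r' : ℝ≥0∞) ≤ p.radius := by
    refine p.le_radius_of_summable_norm ?_
    simp only [hp, FormalMultilinearSeries.ofScalars_norm, Real.norm_eq_abs]
    exact h.summable_abs hr0 hr
  have hball : x ∈ Metric.eball (0 : ℝ) p.radius := by
    refine Metric.mem_eball.2 (lt_of_lt_of_le ?_ hrad)
    rw [edist_zero_right, ← ofReal_norm, ← ENNReal.ofReal_coe_nnreal]
    show ENNReal.ofReal ‖x‖ < ENNReal.ofReal r
    exact ENNReal.ofReal_lt_ofReal_iff'.2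
      ⟨by rwa [Real.norm_eq_abs], (abs_nonneg x).trans_lt hxr⟩
  have hsum : p.sum = powSum a := by
    funext y
    simp only [hp, FormalMultilinearSeries.sum, powSum,
      FormalMultilinearSeries.ofScalars_apply_eq, smul_eq_mul]
  have := (p.hasFPowerSeriesOnBall (lt_of_le_of_lt bot_le (Metric.mem_eball.1 hball)
    )).analyticAt_of_mem hball
  rwa [hsum] at this

theorem powSum_zero (a : ℕ → ℝ) : powSum a 0 = a 0 := by
  rw [powSum, tsum_eq_single 0 fun n hn => by simp [hn]]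
  simp

end FA.RamanujanPi

end
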